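/-
S15 / Dict / Nodal (architect helper271): the invariants `a'`, `b'` of the quotient curve (x-only
Velu sums) over an arbitrary field, and the recursions (R0)-(R3) satisfied by the x-coordinates
`x k = x(kQ)` of the multiples of a point of order `N` on `y² = 4x³ - a x - b`.
-/
import Mathlib

set_option autoImplicit false

namespace Fermat.Agent.S15.Dict

variable {K : Type*} [Field K]

/-- `g₂` of the quotient curve: `a + 10 ∑_{k=1}^{N-1} (6 x_k² - a/2)`. -/
def aIsoK (a : K) (N : ℕ) (x : ℕ → K) : K :=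
  a + 10 * ∑ k ∈ Finset.Ico 1 N, (6 * x k ^ 2 - a / 2)

/-- `g₃` of the quotient curve: `b + ∑_{k=1}^{N-1} (140 x_k³ - 21 a x_k - 14 b)`. -/
def bIsoK (a b : K) (N : ℕ) (x : ℕ → K) : K :=
  b + ∑ k ∈ Finset.Ico 1 N, (140 * x k ^ 3 - 21 * a * x k - 14 * b)

/-- The x-only description of the multiples of a point of order `N` on `y² = 4x³ - a x - b`. -/
structure IsMultiples (a b : K) (N : ℕ) (x : ℕ → K) : Prop where
  r0 : ∀ k, 1 ≤ k → k < N → 4 * x k ^ 3 - a * x k - b ≠ 0
  r1 : x 2 * (4 * x 1 ^ 3 - a * x 1 - b) = (x 1 ^ 2 + a / 4) ^ 2 + 2 * b * x 1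
  r2ne : ∀ k, 2 ≤ k → k + 2 ≤ N → x k ≠ x 1
  r2 : ∀ k, 2 ≤ k → k + 2 ≤ N → (x (k + 1) + x (k - 1)) * (x k - x 1) ^ 2
        = 2 * (x k * x 1 - a / 4) * (x k + x 1) - b
  r3 : x (N - 1) = x 1

theorem map_aIsoK {L : Type*} [Field L] (f : K →+* L) (a : K) (N : ℕ) (x : ℕ → K) :
    f (aIsoK a N x) = aIsoK (f a) N (fun k => f (x k)) := by
  simp only [aIsoK, map_add, map_mul, map_sum, map_sub, map_pow, map_div₀, map_ofNat]

theorem map_bIsoK {L : Type*} [Field L] (f : K →+* L) (a b : K) (N : ℕ) (x : ℕ → K) :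
    f (bIsoK a b N x) = bIsoK (f a) (f b) N (fun k => f (x k)) := by
  simp only [bIsoK, map_add, map_mul, map_sum, map_sub, map_pow, map_ofNat]

theorem IsMultiples.map {L : Type*} [Field L] (f : K →+* L) {a b : K} {N : ℕ} {x : ℕ → K}
    (h : IsMultiples a b N x) : IsMultiples (f a) (f b) N (fun k => f (x k)) where
  r0 k h1 h2 := by
    have := h.r0 k h1 h2
    intro h0
    apply this
    apply f.injective
    simpa only [map_add, map_mul, map_sub, map_pow, map_div₀, map_ofNat, map_zero] using h0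
  r1 := by
    have := congrArg f h.r1
    simpa only [map_add, map_mul, map_sub, map_pow, map_div₀, map_ofNat] using this
  r2ne k h1 h2 h0 := h.r2ne k h1 h2 (f.injective h0)
  r2 k h1 h2 := by
    have := congrArg f (h.r2 k h1 h2)
    simpa only [map_add, map_mul, map_sub, map_pow, map_div₀, map_ofNat] using this
  r3 := congrArg f h.r3

end Fermat.Agent.S15.Dict
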