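/-
S15 / Dict / Nodal / Param (architect helper271): on the nodal cubic
`y² = 4x³ - 12e² x + 8e³ = 4 (x-e)² (x+2e)` the x-only recursions are solved by
`x_k = e + 12 e u^k/(1-u^k)²`, and `u` is a primitive `N`-th root of unity.
-/
import Fermat.Agent.S15.Dict.Nodal.Defs

set_option autoImplicit false

namespace Fermat.Agent.S15.Dict

variable {k : Type*} [Field k]

/-- the parametrisation of the x-coordinate on the nodal cubic. -/
noncomputable def xNod (e t : k) : k := e + 12 * e * (t / (1 - t) ^ 2)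

theorem xNod_sub_xNod (e s t : k) (hs : s ≠ 1) (ht : t ≠ 1) :
    (xNod e s - xNod e t) * ((1 - s) ^ 2 * (1 - t) ^ 2) = 12 * e * ((s - t) * (1 - s * t)) := by
  have h1 : 1 - s ≠ 0 := sub_ne_zero.mpr hs.symm
  have h2 : 1 - t ≠ 0 := sub_ne_zero.mpr ht.symm
  unfold xNod
  field_simp
  ring

/-- `4x³ - a x - b` on the parametrisation. -/
theorem cubic_xNod (e t : k) (ht : t ≠ 1) :
    (4 * xNod e t ^ 3 - 12 * e ^ 2 * xNod e t - (-8 * e ^ 3)) * (1 - t) ^ 6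
      = 4 * (12 * e) ^ 2 * (3 * e) * t ^ 2 * (1 + t) ^ 2 := by
  have h2 : 1 - t ≠ 0 := sub_ne_zero.mpr ht.symm
  unfold xNod
  field_simp
  ring

private theorem param_div_four (h2 : (2 : k) ≠ 0) (e : k) : 12 * e ^ 2 / 4 = 3 * e ^ 2 := by
  have h4 : (4 : k) ≠ 0 := by
    have : (4 : k) = 2 * 2 := by norm_num
    rw [this]
    exact mul_ne_zero h2 h2
  rw [div_eq_iff h4]
  ring

/-- duplication formula on the parametrisation. -/
theorem dup_xNod (h2 : (2 : k) ≠ 0) (e t : k) (ht : t ≠ 1) (ht2 : t ^ 2 ≠ 1) :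
    xNod e (t ^ 2) * (4 * xNod e t ^ 3 - 12 * e ^ 2 * xNod e t - (-8 * e ^ 3))
      = (xNod e t ^ 2 + 12 * e ^ 2 / 4) ^ 2 + 2 * (-8 * e ^ 3) * xNod e t := by
  have h1 : 1 - t ≠ 0 := sub_ne_zero.mpr ht.symm
  have h3 : 1 - t ^ 2 ≠ 0 := sub_ne_zero.mpr ht2.symm
  rw [param_div_four h2]
  unfold xNod
  field_simp
  ring

/-- addition formula on the parametrisation (`r = s/t`). -/
theorem add_xNod (h2 : (2 : k) ≠ 0) (e s t r : k) (hs : s ≠ 1) (ht : t ≠ 1) (hst : s * t ≠ 1) (hr : r ≠ 1)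
    (hrt : r * t = s) :
    (xNod e (s * t) + xNod e r) * (xNod e s - xNod e t) ^ 2
      = 2 * (xNod e s * xNod e t - 12 * e ^ 2 / 4) * (xNod e s + xNod e t) - (-8 * e ^ 3) := by
  subst hrt
  have h1 : 1 - r * t ≠ 0 := sub_ne_zero.mpr hs.symm
  have h3 : 1 - t ≠ 0 := sub_ne_zero.mpr ht.symm
  have h4 : 1 - r * t ^ 2 ≠ 0 := by
    have := sub_ne_zero.mpr hst.symm
    rwa [mul_assoc, ← sq] at this
  have h5 : 1 - r ≠ 0 := sub_ne_zero.mpr hr.symm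
  rw [param_div_four h2]
  unfold xNod
  field_simp
  ring

private theorem param_twelve_ne (h2 : (2 : k) ≠ 0) (h3 : (3 : k) ≠ 0) {e : k} (he : e ≠ 0) :
    (12 : k) * e ≠ 0 := by
  have : (12 : k) = 2 * 2 * 3 := by norm_num
  rw [this]
  exact mul_ne_zero (mul_ne_zero (mul_ne_zero h2 h2) h3) he

/-- `u ≠ 0` and `u ≠ -1`, since the cubic does not vanish at `x 1`. -/
private theorem param_u_ne (e : k) (N : ℕ) (hN : 5 ≤ N) (x : ℕ → k)
    (h : IsMultiples (12 * e ^ 2) (-8 * e ^ 3) N x) (u : k) (hu1 : u ≠ 1) (hu : x 1 = xNod e u) :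
    u ≠ 0 ∧ 1 + u ≠ 0 := by
  have h0 := h.r0 1 le_rfl (by omega)
  rw [hu] at h0
  have h1 := cubic_xNod e u hu1
  have h4 : (1 - u) ^ 6 ≠ 0 := pow_ne_zero 6 (sub_ne_zero.mpr hu1.symm)
  have h5 := mul_ne_zero h0 h4
  rw [h1] at h5
  constructor
  · rintro rfl
    exact h5 (by ring)
  · intro h6
    exact h5 (by rw [h6]; ring)

/-- the step of the induction. -/
private theorem param_step (h2 : (2 : k) ≠ 0) (e : k)
    (N : ℕ) (x : ℕ → k) (h : IsMultiples (12 * e ^ 2) (-8 * e ^ 3) N x)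
    (u : k) (hu1 : u ≠ 1) (hu : x 1 = xNod e u) (j : ℕ) (hj : 2 ≤ j) (hjN : j + 2 ≤ N)
    (ha : u ^ (j - 1) ≠ 1 ∧ x (j - 1) = xNod e (u ^ (j - 1)))
    (hb : u ^ j ≠ 1 ∧ x j = xNod e (u ^ j)) :
    u ^ (j + 1) ≠ 1 ∧ x (j + 1) = xNod e (u ^ (j + 1)) := by
  have hne := h.r2ne j hj hjN
  have hd : x j - x 1 ≠ 0 := sub_ne_zero.mpr hne
  have h1 := xNod_sub_xNod e (u ^ j) u hb.1 hu1
  rw [← hb.2, ← hu] at h1
  have h4 : (1 - u ^ j) ^ 2 * (1 - u) ^ 2 ≠ 0 :=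
    mul_ne_zero (pow_ne_zero 2 (sub_ne_zero.mpr hb.1.symm)) (pow_ne_zero 2 (sub_ne_zero.mpr hu1.symm))
  have h5 := mul_ne_zero hd h4
  rw [h1] at h5
  have hst : u ^ j * u ≠ 1 := by
    intro h6
    exact h5 (by rw [h6]; ring)
  have hrt : u ^ (j - 1) * u = u ^ j := by
    rw [← pow_succ]
    congr 1
    omega
  have h7 := add_xNod h2 e (u ^ j) u (u ^ (j - 1)) hb.1 hu1 hst ha.1 hrt
  rw [← hb.2, ← hu, ← ha.2, ← h.r2 j hj hjN] at h7
  have h8 := mul_right_cancel₀ (pow_ne_zero 2 hd) h7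
  rw [pow_succ]
  exact ⟨hst, (add_right_cancel h8).symm⟩

/-- the induction. -/
theorem eq_xNod_of_isMultiples (h2 : (2 : k) ≠ 0) (h3 : (3 : k) ≠ 0) (e : k) (he : e ≠ 0)
    (N : ℕ) (hN : 5 ≤ N) (x : ℕ → k) (h : IsMultiples (12 * e ^ 2) (-8 * e ^ 3) N x)
    (u : k) (hu1 : u ≠ 1) (hu : x 1 = xNod e u) :
    ∀ j, 1 ≤ j → j < N → u ^ j ≠ 1 ∧ x j = xNod e (u ^ j) := by
  obtain ⟨hu0, hu2⟩ := param_u_ne e N hN x h u hu1 hu
  have P1 : u ^ 1 ≠ 1 ∧ x 1 = xNod e (u ^ 1) := by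
    rw [pow_one]
    exact ⟨hu1, hu⟩
  have hsq : u ^ 2 ≠ 1 := by
    intro h6
    have h7 : (1 - u) * (1 + u) = 0 := by linear_combination -h6
    exact mul_ne_zero (sub_ne_zero.mpr hu1.symm) hu2 h7
  have P2 : u ^ 2 ≠ 1 ∧ x 2 = xNod e (u ^ 2) := by
    refine ⟨hsq, ?_⟩
    have h0 := h.r0 1 le_rfl (by omega)
    have h1 := h.r1
    have h4 := dup_xNod h2 e u hu1 hsq
    rw [← hu, ← h1] at h4
    exact (mul_right_cancel₀ h0 h4).symm
  have key : ∀ j, 1 ≤ j → j + 1 < N →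
      (u ^ j ≠ 1 ∧ x j = xNod e (u ^ j)) ∧ (u ^ (j + 1) ≠ 1 ∧ x (j + 1) = xNod e (u ^ (j + 1))) := by
    intro j hj
    induction j, hj using Nat.le_induction with
    | base => exact fun _ => ⟨P1, P2⟩
    | succ j hj ih =>
      intro hjN
      obtain ⟨ha, hb⟩ := ih (by omega)
      exact ⟨hb, param_step h2 e N x h u hu1 hu (j + 1) (by omega) (by omega) ha hb⟩
  intro j hj hjN
  by_cases hlt : j + 1 < N
  · exact (key j hj hlt).1
  · have h1 := (key (j - 1) (by omega) (by omega)).2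
    have h4 : j - 1 + 1 = j := by omega
    rwa [h4] at h1

theorem pow_eq_one_of_isMultiples (h2 : (2 : k) ≠ 0) (h3 : (3 : k) ≠ 0) (e : k) (he : e ≠ 0)
    (N : ℕ) (hN : 5 ≤ N) (x : ℕ → k) (h : IsMultiples (12 * e ^ 2) (-8 * e ^ 3) N x)
    (u : k) (hu1 : u ≠ 1) (hu : x 1 = xNod e u) : u ^ N = 1 := by
  obtain ⟨hu0, -⟩ := param_u_ne e N hN x h u hu1 hu
  have ind := eq_xNod_of_isMultiples h2 h3 e he N hN x h u hu1 hu
  obtain ⟨ha, hb⟩ := ind (N - 1) (by omega) (by omega)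
  have h1 := xNod_sub_xNod e (u ^ (N - 1)) u ha hu1
  rw [← hb, ← hu, h.r3, sub_self, zero_mul] at h1
  have h4 : (u ^ (N - 1) - u) * (1 - u ^ (N - 1) * u) = 0 :=
    (mul_eq_zero.mp h1.symm).resolve_left (param_twelve_ne h2 h3 he)
  have hN1 : u ^ (N - 1) * u = u ^ N := by
    rw [← pow_succ]
    congr 1
    omega
  rcases mul_eq_zero.mp h4 with h5 | h5
  · exfalso
    have hN2 : u ^ (N - 1) = u ^ (N - 2) * u := by
      rw [← pow_succ]
      congr 1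
      omega
    have h6 : (u ^ (N - 2) - 1) * u = 0 := by
      rw [hN2] at h5
      linear_combination h5
    rcases mul_eq_zero.mp h6 with h7 | h7
    · exact (ind (N - 2) (by omega) (by omega)).1 (sub_eq_zero.mp h7)
    · exact hu0 h7
  · rw [hN1] at h5
    exact (sub_eq_zero.mp h5).symm

end Fermat.Agent.S15.Dict
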