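/-
S15 / Dict / Nodal / SumNewton (architect helper271): Newton's identities `p₁..p₄` in terms of
`e₁..e₄` for a finite family in a commutative ring (specialisation of
`MvPolynomial.psum_eq_mul_esymm_sub_sum` via `MvPolynomial.aeval`).
-/
import Mathlib

set_option autoImplicit false

namespace Fermat.Agent.S15.Dict

variable {σ R : Type*} [Fintype σ] [CommRing R]

/-- elementary symmetric function of a finite family. -/
noncomputable def eSym (f : σ → R) (j : ℕ) : R := (Finset.univ.val.map f).esymm j

/-- power sum of a finite family. -/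
def pSum (f : σ → R) (m : ℕ) : R := ∑ i, f i ^ m

private theorem sumNewton_aeval_psum (f : σ → R) (m : ℕ) :
    MvPolynomial.aeval f (MvPolynomial.psum σ R m) = pSum f m := by
  simp [MvPolynomial.psum, pSum]

private theorem sumNewton_aux (f : σ → R) (k : ℕ) :
    (k : R) * eSym f k = (-1) ^ (k + 1) *
      ∑ a ∈ Finset.HasAntidiagonal.antidiagonal k with a.1 < k, (-1) ^ a.1 * eSym f a.1 * pSum f a.2 := by
  have h := congrArg (MvPolynomial.aeval f) (MvPolynomial.mul_esymm_eq_sum σ R k)
  simp only [map_mul, map_natCast, map_pow, map_neg, map_one, map_sum,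
    MvPolynomial.aeval_esymm_eq_multiset_esymm, sumNewton_aeval_psum] at h
  exact h

private theorem sumNewton_eSym_zero (f : σ → R) : eSym f 0 = 1 := by
  simp [eSym, Multiset.esymm]

theorem pSum_one (f : σ → R) : pSum f 1 = eSym f 1 := by
  have h := sumNewton_aux f 1
  have e : (Finset.HasAntidiagonal.antidiagonal 1).filter (fun a : ℕ × ℕ => a.1 < 1) =
      {(0, 1)} := by decide
  rw [e] at h
  simp [sumNewton_eSym_zero] at h
  linear_combination -h

theorem pSum_two (f : σ → R) : pSum f 2 = eSym f 1 * pSum f 1 - 2 * eSym f 2 := by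
  have h := sumNewton_aux f 2
  have e : (Finset.HasAntidiagonal.antidiagonal 2).filter (fun a : ℕ × ℕ => a.1 < 2) =
      {(0, 2), (1, 1)} := by decide
  rw [e] at h
  simp [sumNewton_eSym_zero] at h
  linear_combination h

theorem pSum_three (f : σ → R) :
    pSum f 3 = eSym f 1 * pSum f 2 - eSym f 2 * pSum f 1 + 3 * eSym f 3 := by
  have h := sumNewton_aux f 3
  have e : (Finset.HasAntidiagonal.antidiagonal 3).filter (fun a : ℕ × ℕ => a.1 < 3) =
      {(0, 3), (1, 2), (2, 1)} := by decide
  rw [e] at h
  simp [sumNewton_eSym_zero] at h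
  linear_combination -h

theorem pSum_four (f : σ → R) :
    pSum f 4 = eSym f 1 * pSum f 3 - eSym f 2 * pSum f 2 + eSym f 3 * pSum f 1 - 4 * eSym f 4 := by
  have h := sumNewton_aux f 4
  have e : (Finset.HasAntidiagonal.antidiagonal 4).filter (fun a : ℕ × ℕ => a.1 < 4) =
      {(0, 4), (1, 3), (2, 2), (3, 1)} := by decide
  rw [e] at h
  simp [sumNewton_eSym_zero] at h
  linear_combination h

end Fermat.Agent.S15.Dict
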