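/-
S15 / Dict / Nodal / SumVieta (architect helper271): the numbers `s_i = 1/(1 - ζ^(i+1))`,
`0 ≤ i < N-1`, `ζ` a primitive `N`-th root of unity, are the roots of
`(T^N - (T-1)^N)/N = T^(N-1) - (C(N,2)/N) T^(N-2) + (C(N,3)/N) T^(N-3) - ...`.
(proofs: helper111)
-/
import Fermat.Agent.S15.Dict.Nodal.SumNewton

set_option autoImplicit false

namespace Fermat.Agent.S15.Dict

open Polynomial

variable {k : Type*} [Field k]

/-- `s_i = 1/(1 - ζ^(i+1))`. -/
noncomputable def sRoot (ζ : k) (N : ℕ) (i : Fin (N - 1)) : k := (1 - ζ ^ ((i : ℕ) + 1))⁻¹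

theorem prod_X_sub_sRoot (ζ : k) (N : ℕ) (hN : 2 ≤ N) (hζ : IsPrimitiveRoot ζ N) :
    C (N : k) * ∏ i : Fin (N - 1), (X - C (sRoot ζ N i)) = X ^ N - (X - 1) ^ N := by
  have hN1 : N - 1 + 1 = N := by omega
  -- homogeneous factorisation of `Y ^ N - X ^ N`, evaluated at `Y = X - 1`
  have hζ' : IsPrimitiveRoot (C ζ : k[X]) N := hζ.map_of_injective C_injective
  have h1 := X_pow_sub_C_eq_prod hζ' (α := (X : k[X])) (a := X ^ N) (by omega) rfl
  have h2 := congrArg (Polynomial.eval (X - 1 : k[X])) h1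
  rw [eval_sub, eval_pow, eval_X, eval_C, eval_prod, ← hN1, Finset.prod_range_succ', hN1] at h2
  simp only [eval_sub, eval_X, eval_C, pow_zero, one_mul] at h2
  have h3 : (X : k[X]) - 1 - X = -1 := by ring
  rw [h3] at h2
  -- the product of the leading coefficients
  have h4 : ∏ i ∈ Finset.range (N - 1), (1 - ζ ^ (i + 1)) = (N : k) := by
    have := IsPrimitiveRoot.prod_one_sub_pow_eq_order (n := N - 1) (μ := ζ) (by rwa [hN1])
    rw [this, ← Nat.cast_succ, Nat.succ_eq_add_one, hN1]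
  have h5 : ∀ i ∈ Finset.range (N - 1), (X : k[X]) - 1 - C ζ ^ (i + 1) * X =
      C (1 - ζ ^ (i + 1)) * (X - C ((1 - ζ ^ (i + 1))⁻¹)) := by
    intro i hi
    have hi' : i + 1 < N := by
      have := Finset.mem_range.mp hi
      omega
    have hne : 1 - ζ ^ (i + 1) ≠ 0 :=
      sub_ne_zero.mpr (hζ.pow_ne_one_of_pos_of_lt (Nat.succ_ne_zero i) hi').symm
    rw [mul_sub, ← C_mul, mul_inv_cancel₀ hne, C_sub, C_pow, C_1]
    ring
  rw [Finset.prod_congr rfl h5, Finset.prod_mul_distrib, ← map_prod, h4] at h2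
  have h6 : ∏ i : Fin (N - 1), ((X : k[X]) - C (sRoot ζ N i)) =
      ∏ i ∈ Finset.range (N - 1), (X - C ((1 - ζ ^ (i + 1))⁻¹)) :=
    (Finset.prod_range (fun i => (X : k[X]) - C ((1 - ζ ^ (i + 1))⁻¹))).symm
  rw [h6]
  linear_combination h2

/-- Vieta: `N e_j = C(N, j+1)`. -/
theorem natCast_mul_eSym_sRoot (ζ : k) (N : ℕ) (hN : 2 ≤ N) (hζ : IsPrimitiveRoot ζ N) (j : ℕ)
    (hj : j + 1 ≤ N) : (N : k) * eSym (sRoot ζ N) j = (N.choose (j + 1) : k) := by
  have h1 := congrArg (fun q : k[X] => q.coeff (N - 1 - j)) (prod_X_sub_sRoot ζ N hN hζ)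
  simp only [coeff_C_mul, coeff_sub, coeff_X_pow] at h1
  have hcard : Multiset.card ((Finset.univ : Finset (Fin (N - 1))).val.map (sRoot ζ N)) = N - 1 := by
    simp
  have h2 : (∏ i : Fin (N - 1), ((X : k[X]) - C (sRoot ζ N i))).coeff (N - 1 - j) =
      (-1) ^ j * eSym (sRoot ζ N) j := by
    have h3 := Multiset.prod_X_sub_C_coeff ((Finset.univ : Finset (Fin (N - 1))).val.map (sRoot ζ N))
      (k := N - 1 - j) (by rw [hcard]; omega)
    rw [hcard, Multiset.map_map] at h3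
    have h4 : N - 1 - (N - 1 - j) = j := by omega
    rw [h4] at h3
    exact h3
  have h5 : (((X : k[X]) - 1) ^ N).coeff (N - 1 - j) = (-1) ^ (j + 1) * (N.choose (j + 1) : k) := by
    have h6 := coeff_X_add_C_pow (-1 : k) N (N - 1 - j)
    rw [C_neg, C_1, ← sub_eq_add_neg] at h6
    have h7 : N - (N - 1 - j) = j + 1 := by omega
    have h8 : N.choose (N - 1 - j) = N.choose (j + 1) := by
      rw [← Nat.choose_symm hj]
      congr 1
      omega
    rw [h6, h7, h8]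
  rw [h2, h5, if_neg (by omega)] at h1
  have h9 : ((-1 : k) ^ j) ≠ 0 := pow_ne_zero _ (neg_ne_zero.mpr one_ne_zero)
  apply mul_left_cancel₀ h9
  linear_combination h1

end Fermat.Agent.S15.Dict
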