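/-
S15 / Dict / Nodal / Sum (architect helper271):
`120 ∑_{k=1}^{N-1} (w_k + 6 w_k²) = N⁴ - 1`, `w_k = ζ^k/(1-ζ^k)²`, `ζ` a primitive `N`-th root of `1`.
-/
import Fermat.Agent.S15.Dict.Nodal.SumVieta

set_option autoImplicit false

namespace Fermat.Agent.S15.Dict

variable {k : Type*} [Field k]

private theorem sum_arith_choose2 (n : ℕ) : 2 * (n + 5).choose 2 = (n + 5) * (n + 4) := by
  have := Nat.descFactorial_eq_factorial_mul_choose (n + 5) 2
  simp only [Nat.descFactorial, Nat.factorial] at this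
  have e1 : n + 5 - 1 = n + 4 := by omega
  simp only [e1, Nat.sub_zero] at this
  nlinarith [this]

private theorem sum_arith_choose3 (n : ℕ) :
    6 * (n + 5).choose 3 = (n + 5) * (n + 4) * (n + 3) := by
  have := Nat.descFactorial_eq_factorial_mul_choose (n + 5) 3
  simp only [Nat.descFactorial, Nat.factorial] at this
  have e1 : n + 5 - 1 = n + 4 := by omega
  have e2 : n + 5 - 2 = n + 3 := by omega
  simp only [e1, e2, Nat.sub_zero] at this
  nlinarith [this]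

private theorem sum_arith_choose4 (n : ℕ) :
    24 * (n + 5).choose 4 = (n + 5) * (n + 4) * (n + 3) * (n + 2) := by
  have := Nat.descFactorial_eq_factorial_mul_choose (n + 5) 4
  simp only [Nat.descFactorial, Nat.factorial] at this
  have e1 : n + 5 - 1 = n + 4 := by omega
  have e2 : n + 5 - 2 = n + 3 := by omega
  have e3 : n + 5 - 3 = n + 2 := by omega
  simp only [e1, e2, e3, Nat.sub_zero] at this
  nlinarith [this]

private theorem sum_arith_choose5 (n : ℕ) :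
    120 * (n + 5).choose 5 = (n + 5) * (n + 4) * (n + 3) * (n + 2) * (n + 1) := by
  have := Nat.descFactorial_eq_factorial_mul_choose (n + 5) 5
  simp only [Nat.descFactorial, Nat.factorial] at this
  have e1 : n + 5 - 1 = n + 4 := by omega
  have e2 : n + 5 - 2 = n + 3 := by omega
  have e3 : n + 5 - 3 = n + 2 := by omega
  have e4 : n + 5 - 4 = n + 1 := by omega
  simp only [e1, e2, e3, e4, Nat.sub_zero] at this
  nlinarith [this]

/-- the integer identity behind `sum_arith`. -/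
private theorem sum_arith_int (N c1 c2 c3 c4 : ℤ) (h1 : 2 * c1 = N * (N - 1))
    (h2 : 6 * c2 = N * (N - 1) * (N - 2)) (h3 : 24 * c3 = N * (N - 1) * (N - 2) * (N - 3))
    (h4 : 120 * c4 = N * (N - 1) * (N - 2) * (N - 3) * (N - 4)) :
    120 * (6 * (c1 * (c1 * (c1 * c1 - 2 * (N * c2)) - N * c2 * c1 + 3 * (N ^ 2 * c3))
          - N * c2 * (c1 * c1 - 2 * (N * c2)) + N ^ 2 * c3 * c1 - 4 * (N ^ 3 * c4))
        - 12 * (N * (c1 * (c1 * c1 - 2 * (N * c2)) - N * c2 * c1 + 3 * (N ^ 2 * c3)))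
        + 7 * (N ^ 2 * (c1 * c1 - 2 * (N * c2))) - N ^ 3 * c1) = N ^ 4 * (N ^ 4 - 1) := by
  have q1 : (c1 : ℚ) = N * (N - 1) / 2 := by
    have : (2 : ℚ) * c1 = N * (N - 1) := by exact_mod_cast h1
    linarith
  have q2 : (c2 : ℚ) = N * (N - 1) * (N - 2) / 6 := by
    have : (6 : ℚ) * c2 = N * (N - 1) * (N - 2) := by exact_mod_cast h2
    linarith
  have q3 : (c3 : ℚ) = N * (N - 1) * (N - 2) * (N - 3) / 24 := by
    have : (24 : ℚ) * c3 = N * (N - 1) * (N - 2) * (N - 3) := by exact_mod_cast h3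
    linarith
  have q4 : (c4 : ℚ) = N * (N - 1) * (N - 2) * (N - 3) * (N - 4) / 120 := by
    have : (120 : ℚ) * c4 = N * (N - 1) * (N - 2) * (N - 3) * (N - 4) := by exact_mod_cast h4
    linarith
  have key : (120 : ℚ) * (6 * ((c1 : ℚ) * (c1 * (c1 * c1 - 2 * (N * c2)) - N * c2 * c1
            + 3 * ((N : ℚ) ^ 2 * c3))
          - N * c2 * (c1 * c1 - 2 * (N * c2)) + (N : ℚ) ^ 2 * c3 * c1 - 4 * ((N : ℚ) ^ 3 * c4))
        - 12 * (N * (c1 * (c1 * c1 - 2 * (N * c2)) - N * c2 * c1 + 3 * ((N : ℚ) ^ 2 * c3)))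
        + 7 * ((N : ℚ) ^ 2 * (c1 * c1 - 2 * (N * c2))) - (N : ℚ) ^ 3 * c1)
      = (N : ℚ) ^ 4 * ((N : ℚ) ^ 4 - 1) := by
    rw [q1, q2, q3, q4]
    ring
  exact_mod_cast key

/-- arithmetic: from `N e_j = C(N,j+1)` and Newton's identities. -/
theorem sum_arith (N : ℕ) (hN : 5 ≤ N) (hNk : (N : k) ≠ 0) (e1 e2 e3 e4 p1 p2 p3 p4 : k)
    (h1 : (N : k) * e1 = (N.choose 2 : k)) (h2 : (N : k) * e2 = (N.choose 3 : k))
    (h3 : (N : k) * e3 = (N.choose 4 : k)) (h4 : (N : k) * e4 = (N.choose 5 : k))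
    (hp1 : p1 = e1) (hp2 : p2 = e1 * p1 - 2 * e2) (hp3 : p3 = e1 * p2 - e2 * p1 + 3 * e3)
    (hp4 : p4 = e1 * p3 - e2 * p2 + e3 * p1 - 4 * e4) :
    120 * (6 * p4 - 12 * p3 + 7 * p2 - p1) = (N : k) ^ 4 - 1 := by
  obtain ⟨n, rfl⟩ : ∃ n, N = n + 5 := ⟨N - 5, by omega⟩
  have hZ := sum_arith_int ((n + 5 : ℕ) : ℤ) ((n + 5).choose 2) ((n + 5).choose 3)
    ((n + 5).choose 4) ((n + 5).choose 5)
    (by have := sum_arith_choose2 n; push_cast; zify at this; linarith)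
    (by have := sum_arith_choose3 n; push_cast; zify at this; linarith)
    (by have := sum_arith_choose4 n; push_cast; zify at this; linarith)
    (by have := sum_arith_choose5 n; push_cast; zify at this; linarith)
  have hk := congrArg (Int.cast : ℤ → k) hZ
  simp only [Int.cast_mul, Int.cast_sub, Int.cast_add, Int.cast_pow, Int.cast_natCast,
    Int.cast_ofNat, Int.cast_one] at hk
  rw [← h1, ← h2, ← h3, ← h4] at hk
  apply mul_left_cancel₀ (pow_ne_zero 4 hNk)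
  subst hp1
  subst hp2
  subst hp3
  subst hp4
  linear_combination hk

/-- in terms of `s = 1/(1-ζ^k)`: `w + 6 w² = 6 s⁴ - 12 s³ + 7 s² - s`. -/
theorem sum_sRoot (ζ : k) (N : ℕ) (hN : 5 ≤ N) (hζ : IsPrimitiveRoot ζ N) (hNk : (N : k) ≠ 0) :
    120 * (6 * pSum (sRoot ζ N) 4 - 12 * pSum (sRoot ζ N) 3 + 7 * pSum (sRoot ζ N) 2
      - pSum (sRoot ζ N) 1) = (N : k) ^ 4 - 1 :=
  sum_arith N hN hNk _ _ _ _ _ _ _ _
    (natCast_mul_eSym_sRoot ζ N (by omega) hζ 1 (by omega))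
    (natCast_mul_eSym_sRoot ζ N (by omega) hζ 2 (by omega))
    (natCast_mul_eSym_sRoot ζ N (by omega) hζ 3 (by omega))
    (natCast_mul_eSym_sRoot ζ N (by omega) hζ 4 (by omega))
    (pSum_one _) (pSum_two _) (pSum_three _) (pSum_four _)

/-- **The sum over the roots of unity.** -/
theorem sum_rootsOfUnity (ζ : k) (N : ℕ) (hN : 5 ≤ N) (hζ : IsPrimitiveRoot ζ N)
    (hNk : (N : k) ≠ 0) :
    120 * ∑ j ∈ Finset.Ico 1 N,
      (ζ ^ j / (1 - ζ ^ j) ^ 2 + 6 * (ζ ^ j / (1 - ζ ^ j) ^ 2) ^ 2) = (N : k) ^ 4 - 1 := by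
  rw [← sum_sRoot ζ N hN hζ hNk, Finset.sum_Ico_eq_sum_range, Finset.sum_range]
  congr 1
  simp only [pSum, Finset.mul_sum, ← Finset.sum_sub_distrib, ← Finset.sum_add_distrib]
  refine Finset.sum_congr rfl fun i _ => ?_
  have hz : ζ ^ (1 + (i : ℕ)) ≠ 1 :=
    hζ.pow_ne_one_of_pos_of_lt (by omega) (by have := i.2; omega)
  have hz' : 1 - ζ ^ (1 + (i : ℕ)) ≠ 0 := sub_ne_zero.2 (Ne.symm hz)
  have hs : sRoot ζ N i = (1 - ζ ^ (1 + (i : ℕ)))⁻¹ := by
    unfold sRoot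
    rw [add_comm]
  rw [hs]
  field_simp
  ring

end Fermat.Agent.S15.Dict
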