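/-
S15 / Dict / Nodal / Main (architect helper271): on a nodal cubic `y² = 4x³ - a x - b`
(`a³ = 27 b²`, `a ≠ 0`) the Velu sum gives `a' = N⁴ a`.
-/
import Fermat.Agent.S15.Dict.Nodal.Param
import Fermat.Agent.S15.Dict.Nodal.Sum

set_option autoImplicit false

namespace Fermat.Agent.S15.Dict

variable {k : Type*} [Field k]

/-- normal form of a nodal cubic. -/
theorem exists_node (h2 : (2 : k) ≠ 0) (h3 : (3 : k) ≠ 0) (a b : k) (hab : a ^ 3 - 27 * b ^ 2 = 0)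
    (ha : a ≠ 0) : ∃ e : k, e ≠ 0 ∧ a = 12 * e ^ 2 ∧ b = -8 * e ^ 3 := by
  have hb : b ≠ 0 := by
    rintro rfl
    apply ha
    have h0 : a ^ 3 = 0 := by linear_combination hab
    exact (pow_eq_zero_iff (by norm_num)).1 h0
  have h2a : 2 * a ≠ 0 := mul_ne_zero h2 ha
  refine ⟨-3 * b / (2 * a), ?_, ?_, ?_⟩
  · exact div_ne_zero (mul_ne_zero (neg_ne_zero.2 h3) hb) h2a
  · rw [div_pow, mul_div_assoc', eq_div_iff (pow_ne_zero 2 h2a)]
    linear_combination 4 * hab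
  · rw [div_pow, mul_div_assoc', eq_div_iff (pow_ne_zero 3 h2a)]
    linear_combination 8 * b * hab

/-- the case where the parameter `u` is rational over `k`. -/
theorem aIsoK_nodal_of_param (h2 : (2 : k) ≠ 0) (h3 : (3 : k) ≠ 0) (e : k) (he : e ≠ 0)
    (N : ℕ) (hN : N.Prime) (hN5 : 5 ≤ N) (hNk : (N : k) ≠ 0) (x : ℕ → k)
    (h : IsMultiples (12 * e ^ 2) (-8 * e ^ 3) N x) (u : k) (hu1 : u ≠ 1)
    (hu : x 1 = xNod e u) : aIsoK (12 * e ^ 2) N x = (N : k) ^ 4 * (12 * e ^ 2) := by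
  have hprim : IsPrimitiveRoot u N := by
    haveI : Fact N.Prime := ⟨hN⟩
    have h1 := pow_eq_one_of_isMultiples h2 h3 e he N hN5 x h u hu1 hu
    have h4 := orderOf_eq_prime h1 hu1
    rw [← h4]
    exact IsPrimitiveRoot.orderOf u
  have hsum := sum_rootsOfUnity u N hN5 hprim hNk
  have ind := eq_xNod_of_isMultiples h2 h3 e he N hN5 x h u hu1 hu
  have hhalf : (12 : k) * e ^ 2 / 2 = 6 * e ^ 2 := by
    rw [div_eq_iff h2]
    ring
  have h6 : ∑ j ∈ Finset.Ico 1 N, (6 * x j ^ 2 - 12 * e ^ 2 / 2) =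
      144 * e ^ 2 * ∑ j ∈ Finset.Ico 1 N,
        (u ^ j / (1 - u ^ j) ^ 2 + 6 * (u ^ j / (1 - u ^ j) ^ 2) ^ 2) := by
    rw [Finset.mul_sum]
    refine Finset.sum_congr rfl fun j hj => ?_
    obtain ⟨hj1, hj2⟩ := Finset.mem_Ico.1 hj
    rw [(ind j hj1 hj2).2, xNod, hhalf]
    ring
  unfold aIsoK
  rw [h6]
  linear_combination 12 * e ^ 2 * hsum

/-- existence of the parameter over an algebraically closed field. -/
theorem exists_param [IsAlgClosed k] (h2 : (2 : k) ≠ 0) (h3 : (3 : k) ≠ 0) (e : k) (he : e ≠ 0)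
    (x1 : k) : ∃ u : k, u ≠ 1 ∧ x1 = xNod e u := by
  by_cases hx : x1 = e
  · refine ⟨0, zero_ne_one, ?_⟩
    rw [hx, xNod, zero_div, mul_zero, add_zero]
  · have hc : x1 - e ≠ 0 := sub_ne_zero.2 hx
    haveI : NeZero (2 : k) := ⟨h2⟩
    obtain ⟨u, hu⟩ := exists_quadratic_eq_zero (a := x1 - e) (b := -(2 * (x1 - e) + 12 * e))
      (c := x1 - e) hc (IsAlgClosed.exists_eq_mul_self _)
    have h12 : (12 : k) * e ≠ 0 := by
      have h0 : (12 : k) = 2 * 2 * 3 := by norm_num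
      rw [h0]
      exact mul_ne_zero (mul_ne_zero (mul_ne_zero h2 h2) h3) he
    have hu1 : u ≠ 1 := by
      rintro rfl
      apply h12
      linear_combination -hu
    refine ⟨u, hu1, ?_⟩
    have h1u : (1 - u) ^ 2 ≠ 0 := pow_ne_zero 2 (sub_ne_zero.2 hu1.symm)
    have h4 : 12 * e * (u / (1 - u) ^ 2) = x1 - e := by
      rw [mul_div_assoc', div_eq_iff h1u]
      linear_combination -hu
    rw [xNod, h4]
    ring

/-- **Nodal Velu sum.** -/
theorem aIsoK_nodal (h2 : (2 : k) ≠ 0) (h3 : (3 : k) ≠ 0) (N : ℕ) (hN : N.Prime) (hN5 : 5 ≤ N)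
    (hNk : (N : k) ≠ 0) (a b : k) (hab : a ^ 3 - 27 * b ^ 2 = 0) (ha : a ≠ 0) (x : ℕ → k)
    (h : IsMultiples a b N x) : aIsoK a N x = (N : k) ^ 4 * a := by
  obtain ⟨e, he, rfl, rfl⟩ := exists_node h2 h3 a b hab ha
  let f : k →+* AlgebraicClosure k := algebraMap k (AlgebraicClosure k)
  have hf : Function.Injective f := f.injective
  have h2' : (2 : AlgebraicClosure k) ≠ 0 := by
    have h0 : f 2 ≠ 0 := (map_ne_zero f).2 h2
    rwa [map_ofNat] at h0
  have h3' : (3 : AlgebraicClosure k) ≠ 0 := by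
    have h0 : f 3 ≠ 0 := (map_ne_zero f).2 h3
    rwa [map_ofNat] at h0
  have hN' : ((N : ℕ) : AlgebraicClosure k) ≠ 0 := by
    have h0 : f (N : k) ≠ 0 := (map_ne_zero f).2 hNk
    rwa [map_natCast] at h0
  have he' : f e ≠ 0 := (map_ne_zero f).2 he
  have ha' : f (12 * e ^ 2) = 12 * f e ^ 2 := by
    rw [map_mul, map_pow, map_ofNat]
  have hb' : f (-8 * e ^ 3) = -8 * f e ^ 3 := by
    rw [map_mul, map_pow, map_neg, map_ofNat]
  have hm := h.map f
  rw [ha', hb'] at hm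
  obtain ⟨u, hu1, hu⟩ := exists_param h2' h3' (f e) he' (f (x 1))
  have key := aIsoK_nodal_of_param h2' h3' (f e) he' N hN hN5 hN' (fun j => f (x j)) hm u hu1 hu
  apply hf
  rw [map_aIsoK, ha', key, map_mul, map_pow, map_natCast, ha']

end Fermat.Agent.S15.Dict
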