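/-
S15 / Dict / Nodal / Red (architect helper271): reduction to the residue field.  If the curve
`y² = 4x³ - a x - b` over a valued field reduces to a nodal cubic and the multiples `kQ` reduce to
nonsingular points which are not of order `2`, then `a'` is a unit.
-/
import Fermat.Agent.S15.Dict.Nodal.Main

set_option autoImplicit false

namespace Fermat.Agent.S15.Dict

variable {K : Type*} [Field K]

private theorem red_res_ne_zero (A : ValuationSubring K) (t : A) :
    IsLocalRing.residue A t ≠ 0 ↔ A.valuation (t : K) = 1 := by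
  rw [IsLocalRing.residue_ne_zero_iff_isUnit, ValuationSubring.valuation_eq_one_iff]

private theorem red_res_eq_zero (A : ValuationSubring K) (t : A) :
    IsLocalRing.residue A t = 0 ↔ A.valuation (t : K) < 1 := by
  rw [IsLocalRing.residue_eq_zero_iff, ValuationSubring.valuation_lt_one_iff]

theorem val_aIsoK_eq_one (A : ValuationSubring K) (N : ℕ) (hN : N.Prime) (hN5 : 5 ≤ N)
    (a b : K) (x : ℕ → K) (h : IsMultiples a b N x)
    (h2 : A.valuation (2 : K) = 1) (h3 : A.valuation (3 : K) = 1)
    (hNv : A.valuation (N : K) = 1)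
    (ha : A.valuation a = 1) (hb : b ∈ A) (hx : ∀ j, 1 ≤ j → j < N → x j ∈ A)
    (hD : A.valuation (a ^ 3 - 27 * b ^ 2) < 1)
    (hpsi : ∀ j, 1 ≤ j → j < N → A.valuation (4 * x j ^ 3 - a * x j - b) = 1) :
    A.valuation (aIsoK a N x) = 1 := by
  classical
  -- `c = a / 4`
  have h2K : (2 : K) ≠ 0 := by
    intro h0
    rw [h0, map_zero] at h2
    exact zero_ne_one h2
  have h4K : (4 : K) ≠ 0 := by
    have : (4 : K) = 2 * 2 := by norm_num
    rw [this]
    exact mul_ne_zero h2K h2K
  have h4v : A.valuation (4 : K) = 1 := by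
    have : (4 : K) = 2 * 2 := by norm_num
    rw [this, map_mul, h2, one_mul]
  obtain ⟨c, hc⟩ : ∃ c : K, a = 4 * c := ⟨a / 4, by field_simp⟩
  have hcv : A.valuation c = 1 := by
    have := ha
    rw [hc, map_mul, h4v, one_mul] at this
    exact this
  have hcA : c ∈ A := (A.valuation_le_one_iff c).1 hcv.le
  have ha4 : a / 4 = c := by rw [hc]; field_simp
  have ha2 : a / 2 = 2 * c := by
    rw [hc, div_eq_iff h2K]; ring
  -- lifts to `A`
  set X : ℕ → A := fun j => if hj : 1 ≤ j ∧ j < N then ⟨x j, hx j hj.1 hj.2⟩ else 0 with hX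
  have hXc : ∀ j, 1 ≤ j → j < N → ((X j : A) : K) = x j := by
    intro j h1 h2
    simp only [hX, dif_pos (And.intro h1 h2)]
  set cA : A := ⟨c, hcA⟩ with hcAdef
  set bA : A := ⟨b, hb⟩ with hbAdef
  have hcAc : ((cA : A) : K) = c := rfl
  have hbAc : ((bA : A) : K) = b := rfl
  set res := IsLocalRing.residue A with hres
  -- numerals
  have c2 : ((2 : A) : K) = 2 := rfl
  have c3 : ((3 : A) : K) = 3 := rfl
  have c4 : ((4 : A) : K) = 4 := rfl
  have c6 : ((6 : A) : K) = 6 := rfl
  have c10 : ((10 : A) : K) = 10 := rfl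
  have c27 : ((27 : A) : K) = 27 := rfl
  have e2 : res 2 = 2 := map_ofNat _ 2
  have e3 : res 3 = 3 := map_ofNat _ 3
  have e4 : res 4 = 4 := map_ofNat _ 4
  have e6 : res 6 = 6 := map_ofNat _ 6
  have e10 : res 10 = 10 := map_ofNat _ 10
  have e27 : res 27 = 27 := map_ofNat _ 27
  -- numerals in the residue field
  have h2k : (2 : IsLocalRing.ResidueField A) ≠ 0 := by
    rw [← e2]
    exact (red_res_ne_zero A (2 : A)).2 (by rw [c2]; exact h2)
  have h3k : (3 : IsLocalRing.ResidueField A) ≠ 0 := by
    rw [← e3]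
    exact (red_res_ne_zero A (3 : A)).2 (by rw [c3]; exact h3)
  have hNk : ((N : ℕ) : IsLocalRing.ResidueField A) ≠ 0 := by
    rw [← map_natCast res N]
    exact (red_res_ne_zero A ((N : ℕ) : A)).2 (by push_cast; exact hNv)
  have h4k : (4 : IsLocalRing.ResidueField A) ≠ 0 := by
    have : (4 : IsLocalRing.ResidueField A) = 2 * 2 := by norm_num
    rw [this]
    exact mul_ne_zero h2k h2k
  have hcb : res cA ≠ 0 := (red_res_ne_zero A cA).2 hcv
  have hab4 : (4 * res cA) / 4 = res cA := by field_simp
  have hab2 : (4 * res cA) / 2 = 2 * res cA := by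
    rw [div_eq_iff h2k]; ring
  -- (R0)
  have r0 : ∀ k, 1 ≤ k → k < N →
      4 * res (X k) ^ 3 - (4 * res cA) * res (X k) - res bA ≠ 0 := by
    intro k h1 h2
    have := (red_res_ne_zero A (4 * X k ^ 3 - (4 * cA) * X k - bA)).2 (by
      push_cast
      rw [hXc k h1 h2, hcAc, hbAc, c4, ← hc]
      exact hpsi k h1 h2)
    rw [← hres] at this
    simpa only [map_sub, map_mul, map_pow, e4] using this
  have r2 : ∀ k, 2 ≤ k → k + 2 ≤ N →
      (res (X (k + 1)) + res (X (k - 1))) * (res (X k) - res (X 1)) ^ 2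
        = 2 * (res (X k) * res (X 1) - res cA) * (res (X k) + res (X 1)) - res bA := by
    intro k h1 h2
    have hA : (X (k + 1) + X (k - 1)) * (X k - X 1) ^ 2
        = 2 * (X k * X 1 - cA) * (X k + X 1) - bA := by
      apply Subtype.ext
      push_cast
      rw [hXc (k + 1) (by omega) (by omega), hXc (k - 1) (by omega) (by omega),
        hXc k (by omega) (by omega), hXc 1 (by omega) (by omega), hcAc, hbAc, c2, ← ha4]
      exact h.r2 k h1 h2
    have := congrArg res hA
    simpa only [map_sub, map_add, map_mul, map_pow, e2] using this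
  have hM : IsMultiples (4 * res cA) (res bA) N (fun j => res (X j)) := by
    refine ⟨r0, ?_, ?_, ?_, ?_⟩
    · have hA : X 2 * (4 * X 1 ^ 3 - (4 * cA) * X 1 - bA) = (X 1 ^ 2 + cA) ^ 2 + 2 * bA * X 1 := by
        apply Subtype.ext
        push_cast
        rw [hXc 2 (by omega) (by omega), hXc 1 (by omega) (by omega), hcAc, hbAc, c4, c2, ← hc,
          ← ha4]
        exact h.r1
      have := congrArg res hA
      rw [hab4]
      simpa only [map_sub, map_add, map_mul, map_pow, e2, e4] using this
    · intro k h1 h2 heq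
      have h20 := r2 k h1 h2
      have heq' : res (X k) = res (X 1) := heq
      rw [heq'] at h20
      apply r0 1 (by omega) (by omega)
      linear_combination -h20
    · intro k h1 h2
      rw [hab4]
      exact r2 k h1 h2
    · have hA : X (N - 1) = X 1 := by
        apply Subtype.ext
        rw [hXc (N - 1) (by omega) (by omega), hXc 1 (by omega) (by omega)]
        exact h.r3
      exact congrArg res hA
  -- discriminant
  have hdisc : (4 * res cA) ^ 3 - 27 * res bA ^ 2 = 0 := by
    have := (red_res_eq_zero A ((4 * cA) ^ 3 - 27 * bA ^ 2)).2 (by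
      push_cast
      rw [hcAc, hbAc, c4, c27, ← hc]
      exact hD)
    rw [← hres] at this
    simpa only [map_sub, map_mul, map_pow, e4, e27] using this
  have hnod := aIsoK_nodal h2k h3k N hN hN5 hNk (4 * res cA) (res bA) hdisc
    (mul_ne_zero h4k hcb) (fun j => res (X j)) hM
  -- the element of `A`
  set T : A := 4 * cA + 10 * ∑ k ∈ Finset.Ico 1 N, (6 * X k ^ 2 - 2 * cA) with hT
  have hTc : ((T : A) : K) = aIsoK a N x := by
    rw [hT, aIsoK, ha2]
    push_cast
    rw [hcAc, c4, c10, c6, c2, ← hc]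
    congr 2
    apply Finset.sum_congr rfl
    intro k hk
    rw [Finset.mem_Ico] at hk
    rw [hXc k hk.1 hk.2]
  have hTr : res T = aIsoK (4 * res cA) N (fun j => res (X j)) := by
    rw [hT, aIsoK, hab2]
    simp only [map_add, map_mul, map_sum, map_sub, map_pow, e2, e4, e6, e10]
  rw [← hTc, ← red_res_ne_zero A T]
  change res T ≠ 0
  rw [hTr, hnod]
  exact mul_ne_zero (pow_ne_zero _ hNk) (mul_ne_zero h4k hcb)

end Fermat.Agent.S15.Dict
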